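/-
Fermat/Agent/T1B/Torus85/Algebra.lean (helper85) -- programme T1B (row 38), brick F4b (N5-abs).

Module-level lemmas for the torus-kernel theorem: two ideals `I`, `J` of a ring `R` with
`I ⊓ J = ⊥` ("two components") acting on a module `N`.
-/
import Mathlib

set_option autoImplicit false

open TensorProduct

namespace Fermat.Agent.T1B.Torus85

section Module

variable {R : Type*} [CommRing R] {N : Type*} [AddCommGroup N] [Module R N]

/-- For a flat module, `I ⊓ J = ⊥` implies `I N ⊓ J N = 0`. -/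
theorem eq_zero_of_mem_smul_top_of_mem_smul_top [Module.Flat R N] {I J : Ideal R}
    (hIJ : I ⊓ J = ⊥) {x : N} (hI : x ∈ I • (⊤ : Submodule R N))
    (hJ : x ∈ J • (⊤ : Submodule R N)) : x = 0 := by
  -- the injection `R → R/I × R/J`
  let φ : R →ₗ[R] (R ⧸ I) × (R ⧸ J) := (Submodule.mkQ I).prod (Submodule.mkQ J)
  have hφ : Function.Injective φ := by
    rw [← LinearMap.ker_eq_bot, LinearMap.ker_prod, Submodule.ker_mkQ, Submodule.ker_mkQ]
    exact hIJ
  have hinj := Module.Flat.lTensor_preserves_injective_linearMap (M := N) φ hφ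
  -- `x ⊗ (1, 0) = 0` and `x ⊗ (0, 1) = 0`
  have h1 : ∀ y ∈ I • (⊤ : Submodule R N),
      y ⊗ₜ[R] ((1 : R ⧸ I), (0 : R ⧸ J)) = (0 : N ⊗[R] ((R ⧸ I) × (R ⧸ J))) := by
    intro y hy
    refine Submodule.smul_induction_on hy (fun a ha m _ => ?_) (fun y z hy hz => ?_)
    · rw [TensorProduct.smul_tmul]
      have : a • ((1 : R ⧸ I), (0 : R ⧸ J)) = 0 := by
        ext
        · show a • (1 : R ⧸ I) = 0
          have h1' : a • (1 : R ⧸ I) = Ideal.Quotient.mk I a := by
            rw [Algebra.smul_def, mul_one]; rfl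
          rw [h1']
          exact Ideal.Quotient.eq_zero_iff_mem.2 ha
        · show a • (0 : R ⧸ J) = 0
          exact smul_zero a
      rw [this, TensorProduct.tmul_zero]
    · rw [TensorProduct.add_tmul, hy, hz, add_zero]
  have h2 : ∀ y ∈ J • (⊤ : Submodule R N),
      y ⊗ₜ[R] ((0 : R ⧸ I), (1 : R ⧸ J)) = (0 : N ⊗[R] ((R ⧸ I) × (R ⧸ J))) := by
    intro y hy
    refine Submodule.smul_induction_on hy (fun a ha m _ => ?_) (fun y z hy hz => ?_)
    · rw [TensorProduct.smul_tmul]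
      have : a • ((0 : R ⧸ I), (1 : R ⧸ J)) = 0 := by
        ext
        · show a • (0 : R ⧸ I) = 0
          exact smul_zero a
        · show a • (1 : R ⧸ J) = 0
          have h1' : a • (1 : R ⧸ J) = Ideal.Quotient.mk J a := by
            rw [Algebra.smul_def, mul_one]; rfl
          rw [h1']
          exact Ideal.Quotient.eq_zero_iff_mem.2 ha
      rw [this, TensorProduct.tmul_zero]
    · rw [TensorProduct.add_tmul, hy, hz, add_zero]
  have h3 : (φ.lTensor N) (x ⊗ₜ[R] (1 : R)) = 0 := by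
    rw [LinearMap.lTensor_tmul]
    have : φ 1 = ((1 : R ⧸ I), (0 : R ⧸ J)) + ((0 : R ⧸ I), (1 : R ⧸ J)) := by
      ext <;> simp [φ]
    rw [this, TensorProduct.tmul_add, h1 x hI, h2 x hJ, add_zero]
  have h4 : x ⊗ₜ[R] (1 : R) = 0 := hinj (by rw [h3, map_zero])
  have := congrArg (TensorProduct.rid R N) h4
  simpa using this

/-- A submodule which generates modulo `I` and modulo `J`, where `I * J = ⊥`, is everything. -/
theorem eq_top_of_sup_smul_top_eq_top {I J : Ideal R} (hIJ : I * J = ⊥) {S : Submodule R N}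
    (hI : S ⊔ I • (⊤ : Submodule R N) = ⊤) (hJ : S ⊔ J • (⊤ : Submodule R N) = ⊤) : S = ⊤ := by
  have h1 : I • (⊤ : Submodule R N) ≤ S := by
    calc I • (⊤ : Submodule R N) = I • (S ⊔ J • (⊤ : Submodule R N)) := by rw [hJ]
      _ = I • S ⊔ I • (J • (⊤ : Submodule R N)) := Submodule.smul_sup _ _ _
      _ = I • S ⊔ (I * J) • (⊤ : Submodule R N) := by rw [Submodule.mul_smul]
      _ = I • S := by rw [hIJ, Submodule.bot_smul, sup_bot_eq]
      _ ≤ S := Submodule.smul_le_right
  rw [← hI]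
  exact (sup_eq_left.2 h1).symm

/-- Generation modulo `I`, element form. -/
theorem span_sup_smul_top_eq_top_iff {I : Ideal R} {e : N} :
    Submodule.span R {e} ⊔ I • (⊤ : Submodule R N) = ⊤ ↔
      ∀ n : N, ∃ a : R, n - a • e ∈ I • (⊤ : Submodule R N) := by
  constructor
  · intro h n
    have hn : n ∈ Submodule.span R {e} ⊔ I • (⊤ : Submodule R N) := by rw [h]; trivial
    obtain ⟨y, hy, z, hz, rfl⟩ := Submodule.mem_sup.1 hn
    obtain ⟨a, rfl⟩ := Submodule.mem_span_singleton.1 hy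
    exact ⟨a, by simpa using hz⟩
  · intro h
    rw [eq_top_iff]
    intro n _
    obtain ⟨a, ha⟩ := h n
    have : n = a • e + (n - a • e) := by abel
    rw [this]
    exact Submodule.add_mem_sup (Submodule.mem_span_singleton.2 ⟨a, rfl⟩) ha

/-- A linear map sends `I N` into `I N'`. -/
theorem map_mem_smul_top {N' : Type*} [AddCommGroup N'] [Module R N'] (f : N →ₗ[R] N')
    {I : Ideal R} {x : N} (hx : x ∈ I • (⊤ : Submodule R N)) :
    f x ∈ I • (⊤ : Submodule R N') := by
  refine Submodule.smul_induction_on hx (fun a ha m _ => ?_) (fun y z hy hz => ?_)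
  · rw [map_smul]
    exact Submodule.smul_mem_smul ha Submodule.mem_top
  · rw [map_add]
    exact add_mem hy hz

/-- A semilinear restriction map sends `I N` into `I' N'` when `I` maps into `I'`. -/
theorem restrict_mem_smul_top {R' : Type*} [CommRing R'] [Algebra R R'] {N' : Type*}
    [AddCommGroup N'] [Module R N'] [Module R' N'] [IsScalarTower R R' N'] (f : N →ₗ[R] N')
    {I : Ideal R} {I' : Ideal R'} (hII' : I.map (algebraMap R R') ≤ I') {x : N}
    (hx : x ∈ I • (⊤ : Submodule R N)) : f x ∈ I' • (⊤ : Submodule R' N') := by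
  refine Submodule.smul_induction_on hx (fun a ha m _ => ?_) (fun y z hy hz => ?_)
  · rw [map_smul, ← algebraMap_smul R' a (f m)]
    exact Submodule.smul_mem_smul (hII' (Ideal.mem_map_of_mem _ ha)) Submodule.mem_top
  · rw [map_add]
    exact add_mem hy hz

/-- `(I N) ⊗ N' ⊆ I (N ⊗ N')`. -/
theorem tmul_mem_smul_top_left {N' : Type*} [AddCommGroup N'] [Module R N'] {I : Ideal R}
    {x : N} (hx : x ∈ I • (⊤ : Submodule R N)) (y : N') :
    x ⊗ₜ[R] y ∈ I • (⊤ : Submodule R (N ⊗[R] N')) := by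
  refine Submodule.smul_induction_on hx (fun a ha m _ => ?_) (fun y' z hy hz => ?_)
  · rw [← TensorProduct.smul_tmul']
    exact Submodule.smul_mem_smul ha Submodule.mem_top
  · rw [TensorProduct.add_tmul]
    exact add_mem hy hz

/-- `N ⊗ (I N') ⊆ I (N ⊗ N')`. -/
theorem tmul_mem_smul_top_right {N' : Type*} [AddCommGroup N'] [Module R N'] {I : Ideal R}
    (x : N) {y : N'} (hy : y ∈ I • (⊤ : Submodule R N')) :
    x ⊗ₜ[R] y ∈ I • (⊤ : Submodule R (N ⊗[R] N')) := by
  refine Submodule.smul_induction_on hy (fun a ha m _ => ?_) (fun y' z hy hz => ?_)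
  · rw [TensorProduct.tmul_smul]
    exact Submodule.smul_mem_smul ha Submodule.mem_top
  · rw [TensorProduct.tmul_add]
    exact add_mem hy hz

/-- `x ⊗ y ≡ x' ⊗ y'` modulo `I` when `x ≡ x'` and `y ≡ y'`. -/
theorem tmul_sub_tmul_mem_smul_top {N' : Type*} [AddCommGroup N'] [Module R N'] {I : Ideal R}
    {x x' : N} {y y' : N'} (hx : x - x' ∈ I • (⊤ : Submodule R N))
    (hy : y - y' ∈ I • (⊤ : Submodule R N')) :
    x ⊗ₜ[R] y - x' ⊗ₜ[R] y' ∈ I • (⊤ : Submodule R (N ⊗[R] N')) := by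
  have : x ⊗ₜ[R] y - x' ⊗ₜ[R] y' = (x - x') ⊗ₜ[R] y + x' ⊗ₜ[R] (y - y') := by
    rw [TensorProduct.sub_tmul, TensorProduct.tmul_sub]; abel
  rw [this]
  exact add_mem (tmul_mem_smul_top_left hx y) (tmul_mem_smul_top_right x' hy)

/-- generators modulo `I` of a tensor product -/
theorem gen_tensor {N' : Type*} [AddCommGroup N'] [Module R N'] {I : Ideal R} {e : N} {f : N'}
    (hN : ∀ n : N, ∃ a : R, n - a • e ∈ I • (⊤ : Submodule R N))
    (hN' : ∀ n : N', ∃ a : R, n - a • f ∈ I • (⊤ : Submodule R N')) (z : N ⊗[R] N') :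
    ∃ a : R, z - a • (e ⊗ₜ[R] f) ∈ I • (⊤ : Submodule R (N ⊗[R] N')) := by
  induction z using TensorProduct.induction_on with
  | zero => exact ⟨0, by simp⟩
  | tmul x y =>
    obtain ⟨a, ha⟩ := hN x
    obtain ⟨b, hb⟩ := hN' y
    refine ⟨a * b, ?_⟩
    have : (a * b) • (e ⊗ₜ[R] f) = (a • e) ⊗ₜ[R] (b • f) := by
      rw [TensorProduct.tmul_smul, ← TensorProduct.smul_tmul', smul_smul, mul_comm]
    rw [this]
    exact tmul_sub_tmul_mem_smul_top ha hb
  | add z w hz hw =>
    obtain ⟨a, ha⟩ := hz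
    obtain ⟨b, hb⟩ := hw
    refine ⟨a + b, ?_⟩
    have : z + w - (a + b) • (e ⊗ₜ[R] f)
        = (z - a • (e ⊗ₜ[R] f)) + (w - b • (e ⊗ₜ[R] f)) := by
      rw [add_smul]; abel
    rw [this]
    exact add_mem ha hb

end Module

end Fermat.Agent.T1B.Torus85
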