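/-
Fermat/Agent/T1B/Torus85/Abstract.lean (helper85) -- programme T1B (row 38), brick F4b (N5-abs).

THE TORUS KERNEL HAS NO `p`-TORSION.  `c : TwoChart κ A0 A1 A01` is a two-chart curve over a field
`κ` of characteristic `p` in which every element is a `p`-th power; `X`, `Y` are two closed
subschemes (`Closed`: ideals on the three opens, compatible with restriction) with
`X ∩ Y`-ideal-wise `I_X ⊓ I_Y = ⊥` (the curve is the union of `X` and `Y`, reduced),
`I_X ⊔ I_Y` radical on the two charts (TRANSVERSAL crossing: the scheme of nodes is reduced),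
and on each of `X`, `Y` the global functions are constants (`Closed.H0Const`).

`eq_one_of_pow_eq_one` : a class `x : LinePic c` with `x ^ p = 1` which is trivial on `X` and on
`Y` (`Closed.TrivOnClass`, element form) is trivial.

Proof without tensor powers: the relation `Rel X Y L u0 u1` ("`L` has generators `e` on `X` and
`f` on `Y` with `e = u • f` at the nodes") is multiplicative in `(L, u)`, every line trivial on `X`
and `Y` has some `u`, for `L = O` the function `u` is constant at the nodes, and a line with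
constant `u` is trivial (glue the two generators).
-/
import Mathlib
import Fermat.Agent.Jac.JGroup85Pic
import Fermat.Agent.Jac.LineOps39.Section
import Fermat.Agent.Jac.LineOps39.IdealSheaf
import Fermat.Agent.T1.Red68.PairTrivial
import Fermat.Agent.T1B.Torus85.Algebra

set_option autoImplicit false
set_option linter.unusedSectionVars false
set_option linter.style.haveILetI false

open TensorProduct

namespace Fermat.Agent.T1B.Torus85

open Fermat.Agent.Jac Fermat.Agent.Jac.LineOps39 Fermat.Agent.Jac.JGroup85Pic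

universe u

variable {κ A0 A1 A01 : Type u} [Field κ] [CommRing A0] [CommRing A1] [CommRing A01]
  [Algebra κ A0] [Algebra κ A1] [Algebra κ A01] [Algebra A0 A01] [Algebra A1 A01]
  [IsScalarTower κ A0 A01] [IsScalarTower κ A1 A01]

variable (A0 A1 A01) in
/-- A closed subscheme of the two-chart scheme: ideals on the three opens, compatible with
restriction to the overlap. -/
structure Closed where
  I0 : Ideal A0
  I1 : Ideal A1
  I01 : Ideal A01
  map0 : I0.map (algebraMap A0 A01) ≤ I01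
  map1 : I1.map (algebraMap A1 A01) ≤ I01

namespace Closed

variable (X Y : Closed A0 A1 A01)

/-- `(e0, e1)` is a generator of `L` along the closed subscheme `X`. -/
structure Triv (L : QC2 κ A0 A1 A01) (e0 : L.N0) (e1 : L.N1) : Prop where
  gen0 : ∀ n : L.N0, ∃ a : A0, n - a • e0 ∈ X.I0 • (⊤ : Submodule A0 L.N0)
  gen1 : ∀ n : L.N1, ∃ a : A1, n - a • e1 ∈ X.I1 • (⊤ : Submodule A1 L.N1)
  compat : L.r0 e0 - L.r1 e1 ∈ X.I01 • (⊤ : Submodule A01 L.N01)

/-- `L` is trivial along `X`. -/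
def IsTrivOn (L : QC2 κ A0 A1 A01) : Prop := ∃ e0 e1, X.Triv L e0 e1

/-- Global functions on `X` are constants (quotient-free form of `H0Const`). -/
def H0Const (κ : Type u) [Field κ] [Algebra κ A0] [Algebra κ A1] [Algebra κ A01]
    (X : Closed A0 A1 A01) : Prop :=
  ∀ (a0 : A0) (a1 : A1), algebraMap A0 A01 a0 - algebraMap A1 A01 a1 ∈ X.I01 →
    ∃ d : κ, a0 - algebraMap κ A0 d ∈ X.I0 ∧ a1 - algebraMap κ A1 d ∈ X.I1

variable {X Y}

/-- transport of generators along an isomorphism -/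
theorem Triv.iso {L M : QC2 κ A0 A1 A01} (φ : QC2.Iso L M) {e0 : L.N0} {e1 : L.N1}
    (h : X.Triv L e0 e1) : X.Triv M (φ.e0 e0) (φ.e1 e1) where
  gen0 := fun n => by
    obtain ⟨a, ha⟩ := h.gen0 (φ.e0.symm n)
    refine ⟨a, ?_⟩
    have := map_mem_smul_top φ.e0.toLinearMap ha
    simpa using this
  gen1 := fun n => by
    obtain ⟨a, ha⟩ := h.gen1 (φ.e1.symm n)
    refine ⟨a, ?_⟩
    have := map_mem_smul_top φ.e1.toLinearMap ha
    simpa using this
  compat := by
    have := map_mem_smul_top φ.e01.toLinearMap h.compat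
    rw [LinearEquiv.coe_coe, map_sub, φ.comm0, φ.comm1] at this
    exact this

theorem IsTrivOn.iso {L M : QC2 κ A0 A1 A01} (φ : QC2.Iso L M) (h : X.IsTrivOn L) :
    X.IsTrivOn M := by
  obtain ⟨e0, e1, he⟩ := h
  exact ⟨_, _, he.iso φ⟩

/-- scaling a generator by a nonzero constant -/
theorem Triv.smul_const {L : QC2 κ A0 A1 A01} {e0 : L.N0} {e1 : L.N1} (h : X.Triv L e0 e1)
    {d : κ} (hd : d ≠ 0) : X.Triv L (algebraMap κ A0 d • e0) (algebraMap κ A1 d • e1) where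
  gen0 := fun n => by
    obtain ⟨a, ha⟩ := h.gen0 n
    refine ⟨a * algebraMap κ A0 d⁻¹, ?_⟩
    have : (a * algebraMap κ A0 d⁻¹) • algebraMap κ A0 d • e0 = a • e0 := by
      rw [smul_smul, mul_assoc, ← map_mul, inv_mul_cancel₀ hd, map_one, mul_one]
    rwa [this]
  gen1 := fun n => by
    obtain ⟨a, ha⟩ := h.gen1 n
    refine ⟨a * algebraMap κ A1 d⁻¹, ?_⟩
    have : (a * algebraMap κ A1 d⁻¹) • algebraMap κ A1 d • e1 = a • e1 := by
      rw [smul_smul, mul_assoc, ← map_mul, inv_mul_cancel₀ hd, map_one, mul_one]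
    rwa [this]
  compat := by
    have h0 : L.r0 (algebraMap κ A0 d • e0) = algebraMap κ A01 d • L.r0 e0 := by
      rw [map_smul, ← algebraMap_smul A01 (algebraMap κ A0 d) (L.r0 e0),
        ← IsScalarTower.algebraMap_apply]
    have h1 : L.r1 (algebraMap κ A1 d • e1) = algebraMap κ A01 d • L.r1 e1 := by
      rw [map_smul, ← algebraMap_smul A01 (algebraMap κ A1 d) (L.r1 e1),
        ← IsScalarTower.algebraMap_apply]
    rw [h0, h1, ← smul_sub]
    exact Submodule.smul_mem _ _ h.compat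

/-- generators of a tensor product -/
theorem Triv.tensor {L M : QC2 κ A0 A1 A01} {e0 : L.N0} {e1 : L.N1} {f0 : M.N0} {f1 : M.N1}
    (hL : X.Triv L e0 e1) (hM : X.Triv M f0 f1) :
    X.Triv (tensor L M) (e0 ⊗ₜ[A0] f0) (e1 ⊗ₜ[A1] f1) where
  gen0 := gen_tensor hL.gen0 hM.gen0
  gen1 := gen_tensor hL.gen1 hM.gen1
  compat := by
    rw [tensor_r0_tmul, tensor_r1_tmul]
    exact tmul_sub_tmul_mem_smul_top hL.compat hM.compat

theorem IsTrivOn.tensor {L M : QC2 κ A0 A1 A01} (hL : X.IsTrivOn L) (hM : X.IsTrivOn M) :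
    X.IsTrivOn (tensor L M) := by
  obtain ⟨e0, e1, he⟩ := hL
  obtain ⟨f0, f1, hf⟩ := hM
  exact ⟨_, _, he.tensor hf⟩

end Closed

open Closed

/-! ### The node relation -/

/-- `L` has generators `e` along `X` and `f` along `Y` with `e = u • f` at the nodes `X ∩ Y`. -/
def Rel (X Y : Closed A0 A1 A01) (L : QC2 κ A0 A1 A01) (u0 : A0) (u1 : A1) : Prop :=
  ∃ (e0 : L.N0) (e1 : L.N1) (f0 : L.N0) (f1 : L.N1), X.Triv L e0 e1 ∧ Y.Triv L f0 f1 ∧
    e0 - u0 • f0 ∈ (X.I0 ⊔ Y.I0) • (⊤ : Submodule A0 L.N0) ∧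
    e1 - u1 • f1 ∈ (X.I1 ⊔ Y.I1) • (⊤ : Submodule A1 L.N1)

variable {X Y : Closed A0 A1 A01}

theorem smul_top_le_sup_left {R N : Type*} [CommRing R] [AddCommGroup N] [Module R N]
    (I J : Ideal R) : I • (⊤ : Submodule R N) ≤ (I ⊔ J) • (⊤ : Submodule R N) :=
  Submodule.smul_mono_left le_sup_left

theorem smul_top_le_sup_right {R N : Type*} [CommRing R] [AddCommGroup N] [Module R N]
    (I J : Ideal R) : J • (⊤ : Submodule R N) ≤ (I ⊔ J) • (⊤ : Submodule R N) :=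
  Submodule.smul_mono_left le_sup_right

/-- (1) a line which is trivial along `X` and along `Y` has a node function. -/
theorem exists_rel {L : QC2 κ A0 A1 A01} (hX : X.IsTrivOn L) (hY : Y.IsTrivOn L) :
    ∃ u0 u1, Rel X Y L u0 u1 := by
  obtain ⟨e0, e1, he⟩ := hX
  obtain ⟨f0, f1, hf⟩ := hY
  obtain ⟨u0, hu0⟩ := hf.gen0 e0
  obtain ⟨u1, hu1⟩ := hf.gen1 e1
  exact ⟨u0, u1, e0, e1, f0, f1, he, hf, smul_top_le_sup_right _ _ hu0,
    smul_top_le_sup_right _ _ hu1⟩

/-- transport along an isomorphism -/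
theorem Rel.iso {L M : QC2 κ A0 A1 A01} (φ : QC2.Iso L M) {u0 : A0} {u1 : A1}
    (h : Rel X Y L u0 u1) : Rel X Y M u0 u1 := by
  obtain ⟨e0, e1, f0, f1, he, hf, h0, h1⟩ := h
  refine ⟨_, _, _, _, he.iso φ, hf.iso φ, ?_, ?_⟩
  · have := map_mem_smul_top φ.e0.toLinearMap h0
    simpa using this
  · have := map_mem_smul_top φ.e1.toLinearMap h1
    simpa using this

/-- (2) multiplicativity -/
theorem Rel.tensor {L M : QC2 κ A0 A1 A01} {u0 v0 : A0} {u1 v1 : A1}
    (hL : Rel X Y L u0 u1) (hM : Rel X Y M v0 v1) :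
    Rel X Y (tensor L M) (u0 * v0) (u1 * v1) := by
  obtain ⟨e0, e1, f0, f1, he, hf, h0, h1⟩ := hL
  obtain ⟨e0', e1', f0', f1', he', hf', h0', h1'⟩ := hM
  refine ⟨e0 ⊗ₜ[A0] e0', e1 ⊗ₜ[A1] e1', f0 ⊗ₜ[A0] f0', f1 ⊗ₜ[A1] f1', he.tensor he',
    hf.tensor hf', ?_, ?_⟩
  · have : (u0 * v0) • (f0 ⊗ₜ[A0] f0') = (u0 • f0) ⊗ₜ[A0] (v0 • f0') := by
      rw [TensorProduct.tmul_smul, ← TensorProduct.smul_tmul', smul_smul, mul_comm]
    have key := tmul_sub_tmul_mem_smul_top h0 h0'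
    rw [← this] at key
    exact key
  · have : (u1 * v1) • (f1 ⊗ₜ[A1] f1') = (u1 • f1) ⊗ₜ[A1] (v1 • f1') := by
      rw [TensorProduct.tmul_smul, ← TensorProduct.smul_tmul', smul_smul, mul_comm]
    have key := tmul_sub_tmul_mem_smul_top h1 h1'
    rw [← this] at key
    exact key

theorem unit_mem0 {I : Ideal A0} {x : A0} :
    x ∈ I • (⊤ : Submodule A0 (QC2.unit : QC2 κ A0 A1 A01).N0) ↔ x ∈ I := by
  show x ∈ I • (⊤ : Submodule A0 A0) ↔ _
  rw [smul_eq_mul, Ideal.mul_top]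

theorem unit_mem1 {I : Ideal A1} {x : A1} :
    x ∈ I • (⊤ : Submodule A1 (QC2.unit : QC2 κ A0 A1 A01).N1) ↔ x ∈ I := by
  show x ∈ I • (⊤ : Submodule A1 A1) ↔ _
  rw [smul_eq_mul, Ideal.mul_top]

theorem unit_mem01 {I : Ideal A01} {x : A01} :
    x ∈ I • (⊤ : Submodule A01 (QC2.unit : QC2 κ A0 A1 A01).N01) ↔ x ∈ I := by
  show x ∈ I • (⊤ : Submodule A01 A01) ↔ _
  rw [smul_eq_mul, Ideal.mul_top]

/-- generators of the structure sheaf along `X` are constant -/
theorem Closed.Triv.const_of_unit (hX : X.H0Const κ) {e0 : A0} {e1 : A1}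
    (h : X.Triv (QC2.unit : QC2 κ A0 A1 A01) e0 e1) :
    ∃ d : κ, e0 - algebraMap κ A0 d ∈ X.I0 ∧ e1 - algebraMap κ A1 d ∈ X.I1 :=
  hX e0 e1 (unit_mem01.1 h.compat)

/-- a generator along `X` does not lie in `I0` if `I0 ≠ ⊤` -/
theorem Closed.Triv.notMem_of_unit (hX0 : X.I0 ≠ ⊤) {e0 : A0} {e1 : A1}
    (h : X.Triv (QC2.unit : QC2 κ A0 A1 A01) e0 e1) : e0 ∉ X.I0 := by
  intro he
  obtain ⟨a, ha'⟩ := h.gen0 (1 : A0)
  have ha : (1 : A0) - a • e0 ∈ X.I0 := unit_mem0.1 ha'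
  apply hX0
  rw [Ideal.eq_top_iff_one]
  have : (1 : A0) = (1 - a • e0) + a • e0 := by abel
  rw [this]
  exact add_mem ha (X.I0.mul_mem_left a he)

/-- (3) for the structure sheaf the node function is a nonzero constant -/
theorem Rel.const_of_unit (hX : X.H0Const κ) (hY : Y.H0Const κ) (hX0 : X.I0 ≠ ⊤)
    (hY0 : Y.I0 ≠ ⊤) {u0 : A0} {u1 : A1}
    (h : Rel X Y (QC2.unit : QC2 κ A0 A1 A01) u0 u1) :
    ∃ d : κ, d ≠ 0 ∧ u0 - algebraMap κ A0 d ∈ X.I0 ⊔ Y.I0 ∧
      u1 - algebraMap κ A1 d ∈ X.I1 ⊔ Y.I1 := by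
  obtain ⟨(e0 : A0), (e1 : A1), (f0 : A0), (f1 : A1), he, hf, h0, h1⟩ := h
  obtain ⟨dX, hdX0, hdX1⟩ := he.const_of_unit hX
  obtain ⟨dY, hdY0, hdY1⟩ := hf.const_of_unit hY
  have hdX : dX ≠ 0 := by
    rintro rfl
    rw [map_zero, sub_zero] at hdX0
    exact he.notMem_of_unit hX0 hdX0
  have hdY : dY ≠ 0 := by
    rintro rfl
    rw [map_zero, sub_zero] at hdY0
    exact hf.notMem_of_unit hY0 hdY0
  replace h0 : e0 - u0 • f0 ∈ X.I0 ⊔ Y.I0 := unit_mem0.1 h0
  replace h1 : e1 - u1 • f1 ∈ X.I1 ⊔ Y.I1 := unit_mem1.1 h1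
  refine ⟨dX * dY⁻¹, mul_ne_zero hdX (inv_ne_zero hdY), ?_, ?_⟩
  · -- `u0 dY ≡ dX`
    have k1 : u0 * algebraMap κ A0 dY - algebraMap κ A0 dX ∈ X.I0 ⊔ Y.I0 := by
      have : u0 * algebraMap κ A0 dY - algebraMap κ A0 dX
          = (e0 - algebraMap κ A0 dX) - (e0 - u0 • f0) - u0 * (f0 - algebraMap κ A0 dY) := by
        rw [smul_eq_mul]; ring
      rw [this]
      exact sub_mem (sub_mem (Ideal.mem_sup_left hdX0) h0)
        (Ideal.mul_mem_left _ _ (Ideal.mem_sup_right hdY0))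
    have : u0 - algebraMap κ A0 (dX * dY⁻¹)
        = algebraMap κ A0 dY⁻¹ * (u0 * algebraMap κ A0 dY - algebraMap κ A0 dX) := by
      have hinv : algebraMap κ A0 dY⁻¹ * algebraMap κ A0 dY = 1 := by
        rw [← map_mul, inv_mul_cancel₀ hdY, map_one]
      rw [map_mul, mul_sub, mul_comm u0, ← mul_assoc, hinv, one_mul, mul_comm (algebraMap κ A0 dX)]
    rw [this]
    exact Ideal.mul_mem_left _ _ k1
  · have k1 : u1 * algebraMap κ A1 dY - algebraMap κ A1 dX ∈ X.I1 ⊔ Y.I1 := by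
      have : u1 * algebraMap κ A1 dY - algebraMap κ A1 dX
          = (e1 - algebraMap κ A1 dX) - (e1 - u1 • f1) - u1 * (f1 - algebraMap κ A1 dY) := by
        rw [smul_eq_mul]; ring
      rw [this]
      exact sub_mem (sub_mem (Ideal.mem_sup_left hdX1) h1)
        (Ideal.mul_mem_left _ _ (Ideal.mem_sup_right hdY1))
    have : u1 - algebraMap κ A1 (dX * dY⁻¹)
        = algebraMap κ A1 dY⁻¹ * (u1 * algebraMap κ A1 dY - algebraMap κ A1 dX) := by
      have hinv : algebraMap κ A1 dY⁻¹ * algebraMap κ A1 dY = 1 := by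
        rw [← map_mul, inv_mul_cancel₀ hdY, map_one]
      rw [map_mul, mul_sub, mul_comm u1, ← mul_assoc, hinv, one_mul, mul_comm (algebraMap κ A1 dX)]
    rw [this]
    exact Ideal.mul_mem_left _ _ k1

/-! ### Gluing -/

/-- A line with a global section generating both chart modules is trivial. -/
theorem nonempty_iso_unit_of_span (M : QC2 κ A0 A1 A01) (hM : M.IsLine) (σ : M.H0)
    (h0 : Submodule.span A0 {σ.1.1} = ⊤) (h1 : Submodule.span A1 {σ.1.2} = ⊤) :
    Nonempty (QC2.Iso (QC2.unit : QC2 κ A0 A1 A01) M) := by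
  have i0 := hM.inv0
  have i1 := hM.inv1
  have i01 := Fermat.Agent.T1.Red68.invertible_N01 hM
  let f := homOfSection M σ
  have s0 : Function.Surjective f.f0 := fun n => by
    have hn : n ∈ Submodule.span A0 {σ.1.1} := by rw [h0]; trivial
    obtain ⟨a, ha⟩ := Submodule.mem_span_singleton.1 hn
    exact ⟨a, ha⟩
  have s1 : Function.Surjective f.f1 := fun n => by
    have hn : n ∈ Submodule.span A1 {σ.1.2} := by rw [h1]; trivial
    obtain ⟨a, ha⟩ := Submodule.mem_span_singleton.1 hn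
    exact ⟨a, ha⟩
  have s01 : Function.Surjective f.f01 := by
    intro y
    induction y using M.bc0.inductionOn with
    | zero => exact ⟨0, map_zero _⟩
    | tmul x =>
      obtain ⟨a, ha⟩ := s0 x
      exact ⟨algebraMap A0 A01 a, by rw [← ha]; exact f.comm0 a⟩
    | smul r y hy =>
      obtain ⟨a, ha⟩ := hy
      exact ⟨r • a, by rw [map_smul, ha]⟩
    | add y₁ y₂ h₁ h₂ =>
      obtain ⟨a, ha⟩ := h₁
      obtain ⟨b, hb⟩ := h₂
      exact ⟨a + b, by rw [map_add, ha, hb]⟩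
  have b0 : Function.Bijective f.f0 :=
    Module.Invertible.bijective_of_surjective (R := A0) (M := A0) (N := M.N0) s0
  have b1 : Function.Bijective f.f1 :=
    Module.Invertible.bijective_of_surjective (R := A1) (M := A1) (N := M.N1) s1
  have b01 : Function.Bijective f.f01 :=
    Module.Invertible.bijective_of_surjective (R := A01) (M := A01) (N := M.N01) s01
  exact ⟨Fermat.Agent.T1.Red68.isoOfBijective f b0 b1 b01⟩

/-- chart-level gluing: two generators along `X` and `Y` which agree at the nodes glue to a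
generator -/
theorem exists_glue {R N : Type*} [CommRing R] [AddCommGroup N] [Module R N] {I J : Ideal R}
    (hIJ : I * J = ⊥) {e f : N}
    (he : ∀ n : N, ∃ a : R, n - a • e ∈ I • (⊤ : Submodule R N))
    (hf : ∀ n : N, ∃ a : R, n - a • f ∈ J • (⊤ : Submodule R N))
    (hef : e - f ∈ (I ⊔ J) • (⊤ : Submodule R N)) :
    ∃ g : N, Submodule.span R {g} = ⊤ ∧ g - e ∈ I • (⊤ : Submodule R N) ∧
      g - f ∈ J • (⊤ : Submodule R N) := by
  rw [Submodule.sup_smul] at hef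
  obtain ⟨a, ha, b, hb, hab⟩ := Submodule.mem_sup.1 hef
  refine ⟨e - a, ?_, ?_, ?_⟩
  · apply eq_top_of_sup_smul_top_eq_top hIJ
    · rw [span_sup_smul_top_eq_top_iff]
      intro n
      obtain ⟨r, hr⟩ := he n
      refine ⟨r, ?_⟩
      have : n - r • (e - a) = (n - r • e) + r • a := by rw [smul_sub]; abel
      rw [this]
      exact add_mem hr (Submodule.smul_mem _ _ ha)
    · rw [span_sup_smul_top_eq_top_iff]
      intro n
      obtain ⟨r, hr⟩ := hf n
      refine ⟨r, ?_⟩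
      have hg : e - a = f + b := by
        have : e - f = a + b := hab.symm
        calc e - a = (e - f) - a + f := by abel
          _ = (a + b) - a + f := by rw [this]
          _ = f + b := by abel
      have : n - r • (e - a) = (n - r • f) - r • b := by rw [hg, smul_add]; abel
      rw [this]
      exact sub_mem hr (Submodule.smul_mem _ _ hb)
  · have : e - a - e = -a := by abel
    rw [this]
    exact neg_mem ha
  · have : e - a - f = b := by
      have : e - f = a + b := hab.symm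
      calc e - a - f = (e - f) - a := by abel
        _ = (a + b) - a := by rw [this]
        _ = b := by abel
    rw [this]
    exact hb

/-- (4) a line whose node function is a nonzero constant is trivial -/
theorem Rel.nonempty_iso_unit {L : QC2 κ A0 A1 A01} (hL : L.IsLine)
    (h0 : X.I0 * Y.I0 = ⊥) (h1 : X.I1 * Y.I1 = ⊥) (h01 : X.I01 ⊓ Y.I01 = ⊥)
    {u0 : A0} {u1 : A1} {d : κ} (hd : d ≠ 0)
    (hu0 : u0 - algebraMap κ A0 d ∈ X.I0 ⊔ Y.I0) (hu1 : u1 - algebraMap κ A1 d ∈ X.I1 ⊔ Y.I1)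
    (h : Rel X Y L u0 u1) : Nonempty (QC2.Iso (QC2.unit : QC2 κ A0 A1 A01) L) := by
  obtain ⟨e0, e1, f0, f1, he, hf, hr0, hr1⟩ := h
  have hf' := hf.smul_const hd
  -- the generators agree at the nodes
  have k0 : e0 - algebraMap κ A0 d • f0 ∈ (X.I0 ⊔ Y.I0) • (⊤ : Submodule A0 L.N0) := by
    have : e0 - algebraMap κ A0 d • f0 = (e0 - u0 • f0) + (u0 - algebraMap κ A0 d) • f0 := by
      rw [sub_smul]; abel
    rw [this]
    exact add_mem hr0 (Submodule.smul_mem_smul hu0 Submodule.mem_top)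
  have k1 : e1 - algebraMap κ A1 d • f1 ∈ (X.I1 ⊔ Y.I1) • (⊤ : Submodule A1 L.N1) := by
    have : e1 - algebraMap κ A1 d • f1 = (e1 - u1 • f1) + (u1 - algebraMap κ A1 d) • f1 := by
      rw [sub_smul]; abel
    rw [this]
    exact add_mem hr1 (Submodule.smul_mem_smul hu1 Submodule.mem_top)
  obtain ⟨g0, hg0, hg0X, hg0Y⟩ := exists_glue h0 he.gen0 hf'.gen0 k0
  obtain ⟨g1, hg1, hg1X, hg1Y⟩ := exists_glue h1 he.gen1 hf'.gen1 k1
  -- compatibility on the overlap
  have hflat : Module.Flat A01 L.N01 := flat_N01 (isVB_of_isLine hL)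
  have cX : L.r0 g0 - L.r1 g1 ∈ X.I01 • (⊤ : Submodule A01 L.N01) := by
    have : L.r0 g0 - L.r1 g1 = L.r0 (g0 - e0) - L.r1 (g1 - e1) + (L.r0 e0 - L.r1 e1) := by
      rw [map_sub, map_sub]; abel
    rw [this]
    exact add_mem (sub_mem (restrict_mem_smul_top L.r0 X.map0 hg0X)
      (restrict_mem_smul_top L.r1 X.map1 hg1X)) he.compat
  have cY : L.r0 g0 - L.r1 g1 ∈ Y.I01 • (⊤ : Submodule A01 L.N01) := by
    have : L.r0 g0 - L.r1 g1 = L.r0 (g0 - algebraMap κ A0 d • f0)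
        - L.r1 (g1 - algebraMap κ A1 d • f1)
        + (L.r0 (algebraMap κ A0 d • f0) - L.r1 (algebraMap κ A1 d • f1)) := by
      rw [map_sub, map_sub]; abel
    rw [this]
    exact add_mem (sub_mem (restrict_mem_smul_top L.r0 Y.map0 hg0Y)
      (restrict_mem_smul_top L.r1 Y.map1 hg1Y)) hf'.compat
  have hcomp : L.r0 g0 - L.r1 g1 = 0 := eq_zero_of_mem_smul_top_of_mem_smul_top h01 cX cY
  have hσ : ((g0, g1) : L.N0 × L.N1) ∈ L.H0 := by
    rw [mem_H0_iff]
    exact sub_eq_zero.1 hcomp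
  exact nonempty_iso_unit_of_span L hL ⟨(g0, g1), hσ⟩ hg0 hg1

/-! ### The main theorem -/

section Main

/-- the class `x` is trivial along `X` -/
def Closed.TrivOnClass (X : Closed A0 A1 A01) (c : TwoChart κ A0 A1 A01) (x : LinePic c) : Prop :=
  ∃ (L : QC2 κ A0 A1 A01) (hL : L.IsLine), x = LinePic.mk c L hL ∧ X.IsTrivOn L

/-- the class `x` has node function `u` -/
def RelClass (c : TwoChart κ A0 A1 A01) (X Y : Closed A0 A1 A01) (x : LinePic c) (u0 : A0)
    (u1 : A1) : Prop :=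
  ∃ (L : QC2 κ A0 A1 A01) (hL : L.IsLine), x = LinePic.mk c L hL ∧ Rel X Y L u0 u1

variable {c : TwoChart κ A0 A1 A01}

theorem Closed.TrivOnClass.of_mk {L : QC2 κ A0 A1 A01} {hL : L.IsLine}
    (h : X.TrivOnClass c (LinePic.mk c L hL)) : X.IsTrivOn L := by
  obtain ⟨M, hM, hLM, hM'⟩ := h
  rw [LinePic.mk_eq_mk_iff] at hLM
  obtain ⟨φ⟩ := hLM
  exact hM'.iso (isoSymm φ)

theorem exists_relClass {x : LinePic c} (hX : X.TrivOnClass c x) (hY : Y.TrivOnClass c x) :
    ∃ u0 u1, RelClass c X Y x u0 u1 := by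
  obtain ⟨L, hL, rfl⟩ := LinePic.exists_rep x
  obtain ⟨u0, u1, h⟩ := exists_rel hX.of_mk hY.of_mk
  exact ⟨u0, u1, L, hL, rfl, h⟩

theorem RelClass.mul {x y : LinePic c} {u0 v0 : A0} {u1 v1 : A1}
    (hx : RelClass c X Y x u0 u1) (hy : RelClass c X Y y v0 v1) :
    RelClass c X Y (x * y) (u0 * v0) (u1 * v1) := by
  obtain ⟨L, hL, rfl, hL'⟩ := hx
  obtain ⟨M, hM, rfl, hM'⟩ := hy
  exact ⟨tensor L M, isLine_tensor hL hM, LinePic.mk_mul_mk hL hM, hL'.tensor hM'⟩

theorem RelClass.pow {x : LinePic c} {u0 : A0} {u1 : A1} (hx : RelClass c X Y x u0 u1)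
    (n : ℕ) : RelClass c X Y (x ^ (n + 1)) (u0 ^ (n + 1)) (u1 ^ (n + 1)) := by
  induction n with
  | zero => simpa using hx
  | succ n ih =>
    rw [pow_succ x, pow_succ u0, pow_succ u1]
    exact ih.mul hx

theorem RelClass.rel_unit {u0 : A0} {u1 : A1} (h : RelClass c X Y (1 : LinePic c) u0 u1) :
    Rel X Y (QC2.unit : QC2 κ A0 A1 A01) u0 u1 := by
  obtain ⟨L, hL, h1, hL'⟩ := h
  rw [LinePic.one_def, LinePic.mk_eq_mk_iff] at h1
  obtain ⟨φ⟩ := h1
  exact hL'.iso (isoSymm φ)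

/-- the kernel of the restriction to the two components consists of the classes which have a
node function -/
theorem exists_relClass_iff {x : LinePic c} :
    (∃ u0 u1, RelClass c X Y x u0 u1) ↔ X.TrivOnClass c x ∧ Y.TrivOnClass c x := by
  constructor
  · rintro ⟨u0, u1, L, hL, rfl, e0, e1, f0, f1, he, hf, -, -⟩
    exact ⟨⟨L, hL, rfl, e0, e1, he⟩, ⟨L, hL, rfl, f0, f1, hf⟩⟩
  · rintro ⟨hX, hY⟩
    exact exists_relClass hX hY

/-- a class with node function `u` is trivial iff `u` is a nonzero constant at the nodes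
(`ker(Pic → Pic X × Pic Y) = (units of the node ring) / (constants)`) -/
theorem RelClass.eq_one_iff (hXc : X.H0Const κ) (hYc : Y.H0Const κ) (hX0 : X.I0 ≠ ⊤)
    (hY0 : Y.I0 ≠ ⊤) (h0 : X.I0 * Y.I0 = ⊥) (h1 : X.I1 * Y.I1 = ⊥) (h01 : X.I01 ⊓ Y.I01 = ⊥)
    {x : LinePic c} {u0 : A0} {u1 : A1} (h : RelClass c X Y x u0 u1) :
    x = 1 ↔ ∃ d : κ, d ≠ 0 ∧ u0 - algebraMap κ A0 d ∈ X.I0 ⊔ Y.I0 ∧
      u1 - algebraMap κ A1 d ∈ X.I1 ⊔ Y.I1 := by
  constructor
  · rintro rfl
    exact h.rel_unit.const_of_unit hXc hYc hX0 hY0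
  · rintro ⟨d, hd, hd0, hd1⟩
    obtain ⟨L, hL, rfl, hL'⟩ := h
    obtain ⟨φ⟩ := hL'.nonempty_iso_unit hL h0 h1 h01 hd hd0 hd1
    rw [LinePic.one_def]
    exact LinePic.mk_eq_mk hL isLine_unit (isoSymm φ)

/-- **The torus kernel has no `p`-torsion.**  `κ` has characteristic `p` and `p`-th roots;
`X`, `Y` closed subschemes with `I_X ⊓ I_Y = ⊥` (on the three opens), `I_X ⊔ I_Y` radical on the
two charts, constants as only global functions and nonempty intersection with the chart `0`.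
A class `x` with `x ^ p = 1` which is trivial along `X` and along `Y` is trivial. -/
theorem eq_one_of_pow_eq_one (p : ℕ) [hp : Fact p.Prime] [CharP κ p]
    (hroot : ∀ d : κ, ∃ δ : κ, δ ^ p = d)
    (hXc : X.H0Const κ) (hYc : Y.H0Const κ) (hX0 : X.I0 ≠ ⊤) (hY0 : Y.I0 ≠ ⊤)
    (h0 : X.I0 ⊓ Y.I0 = ⊥) (h1 : X.I1 ⊓ Y.I1 = ⊥) (h01 : X.I01 ⊓ Y.I01 = ⊥)
    (hrad0 : (X.I0 ⊔ Y.I0).IsRadical) (hrad1 : (X.I1 ⊔ Y.I1).IsRadical)
    {x : LinePic c} (hX : X.TrivOnClass c x) (hY : Y.TrivOnClass c x) (hxp : x ^ p = 1) :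
    x = 1 := by
  obtain ⟨u0, u1, hu⟩ := exists_relClass hX hY
  -- `x ^ p` has node function `u ^ p`, which is therefore constant
  have hp1 : p - 1 + 1 = p := Nat.sub_add_cancel hp.out.one_le
  have hpow := hu.pow (p - 1)
  rw [hp1, hxp] at hpow
  obtain ⟨d, hd, hd0, hd1⟩ := hpow.rel_unit.const_of_unit hXc hYc hX0 hY0
  obtain ⟨δ, rfl⟩ := hroot d
  have hδ : δ ≠ 0 := fun h => hd (by rw [h, zero_pow hp.out.ne_zero])
  -- `u ≡ δ` at the nodes
  have key0 : u0 - algebraMap κ A0 δ ∈ X.I0 ⊔ Y.I0 := by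
    apply hrad0
    refine ⟨p, ?_⟩
    rcases subsingleton_or_nontrivial A0 with hs | hn
    · rw [Subsingleton.elim ((u0 - algebraMap κ A0 δ) ^ p) 0]
      exact zero_mem _
    · haveI : CharP A0 p := charP_of_injective_algebraMap (algebraMap κ A0).injective p
      rw [sub_pow_char, ← map_pow]
      exact hd0
  have key1 : u1 - algebraMap κ A1 δ ∈ X.I1 ⊔ Y.I1 := by
    apply hrad1
    refine ⟨p, ?_⟩
    rcases subsingleton_or_nontrivial A1 with hs | hn
    · rw [Subsingleton.elim ((u1 - algebraMap κ A1 δ) ^ p) 0]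
      exact zero_mem _
    · haveI : CharP A1 p := charP_of_injective_algebraMap (algebraMap κ A1).injective p
      rw [sub_pow_char, ← map_pow]
      exact hd1
  obtain ⟨L, hL, rfl, hL'⟩ := hu
  have m0 : X.I0 * Y.I0 = ⊥ := le_bot_iff.1 (h0 ▸ Ideal.mul_le_inf)
  have m1 : X.I1 * Y.I1 = ⊥ := le_bot_iff.1 (h1 ▸ Ideal.mul_le_inf)
  obtain ⟨φ⟩ := hL'.nonempty_iso_unit hL m0 m1 h01 hδ key0 key1
  rw [LinePic.one_def]
  exact LinePic.mk_eq_mk hL isLine_unit (isoSymm φ)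

end Main

end Fermat.Agent.T1B.Torus85
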