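/-
Fermat/Agent/T1B/Torus85/Bridge.lean (helper85) -- programme T1B (row 38), brick F4b (N5-abs).

The torus-kernel theorem in `LinePic.bc` form: the closed subschemes `X`, `Y` are given by cubes of
SURJECTIVE ring maps `A_j → A_j'` (closed immersions of two-chart data), triviality along `X` is
`LinePic.bc … x = 1`, and "global functions on `X` are constants" is `Red68.H0Const c'`.
-/
import Mathlib
import Fermat.Agent.T1B.Torus85.Abstract
import Fermat.Agent.T1.Red68.Descent

set_option autoImplicit false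
set_option linter.unusedSectionVars false

open TensorProduct

namespace Fermat.Agent.T1B.Torus85

open Fermat.Agent.Jac Fermat.Agent.Jac.LineOps39 Fermat.Agent.Jac.JGroup85Pic
open Fermat.Agent.Jac.JSmooth85Alg Fermat.Agent.Jac.BaseChange75

universe u

section Ring

variable {R R' : Type*} [CommRing R] [CommRing R'] [Algebra R R']

/-- If `R → R'` is surjective every element of `R' ⊗[R] N` is of the form `1 ⊗ n`. -/
theorem exists_one_tmul_eq (hs : Function.Surjective (algebraMap R R')) {N : Type*}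
    [AddCommGroup N] [Module R N] (z : R' ⊗[R] N) : ∃ n : N, (1 : R') ⊗ₜ[R] n = z := by
  induction z using TensorProduct.induction_on with
  | zero => exact ⟨0, TensorProduct.tmul_zero _ _⟩
  | tmul b n =>
    obtain ⟨a, rfl⟩ := hs b
    refine ⟨a • n, ?_⟩
    rw [TensorProduct.tmul_smul, TensorProduct.smul_tmul', Algebra.smul_def, mul_one]
  | add z w hz hw =>
    obtain ⟨n, rfl⟩ := hz
    obtain ⟨m, rfl⟩ := hw
    exact ⟨n + m, TensorProduct.tmul_add _ _ _⟩

/-- If `R → R'` is surjective, the kernel of `n ↦ 1 ⊗ n` is `(ker) • N`. -/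
theorem mem_ker_smul_top_of_one_tmul_eq_zero (hs : Function.Surjective (algebraMap R R'))
    {N : Type*} [AddCommGroup N] [Module R N] {n : N} (h : (1 : R') ⊗ₜ[R] n = 0) :
    n ∈ RingHom.ker (algebraMap R R') • (⊤ : Submodule R N) := by
  set P : Ideal R := RingHom.ker (algebraMap R R') with hP
  -- `R' ≃ R ⧸ P` as `R`-modules
  let e : (R ⧸ P) ≃ₐ[R] R' := Ideal.quotientKerAlgEquivOfSurjective (f := Algebra.ofId R R') hs
  let g : R' →ₗ[R] (R ⧸ P) := e.symm.toLinearMap
  have hg1 : g 1 = 1 := map_one e.symm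
  have h2 : (g.rTensor N) ((1 : R') ⊗ₜ[R] n) = 0 := by rw [h, map_zero]
  rw [LinearMap.rTensor_tmul, hg1] at h2
  have h3 := congrArg (TensorProduct.quotTensorEquivQuotSMul N P) h2
  have h4 : ((1 : R ⧸ P) ⊗ₜ[R] n : (R ⧸ P) ⊗[R] N) = (Ideal.Quotient.mk P 1) ⊗ₜ[R] n := by
    rw [map_one]
  rw [map_zero, h4, TensorProduct.quotTensorEquivQuotSMul_mk_tmul, one_smul] at h3
  exact (Submodule.Quotient.mk_eq_zero _).1 h3

end Ring

section Cube

variable {κ A0 A1 A01 : Type u} [Field κ] [CommRing A0] [CommRing A1] [CommRing A01]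
  [Algebra κ A0] [Algebra κ A1] [Algebra κ A01] [Algebra A0 A01] [Algebra A1 A01]
  [IsScalarTower κ A0 A01] [IsScalarTower κ A1 A01]
  {A0' A1' A01' : Type u} [CommRing A0'] [CommRing A1'] [CommRing A01']
  [Algebra κ A0'] [Algebra κ A1'] [Algebra κ A01'] [Algebra A0' A01'] [Algebra A1' A01']
  [IsScalarTower κ A0' A01'] [IsScalarTower κ A1' A01']
  [Algebra A0 A0'] [Algebra A1 A1'] [Algebra A01 A01']
  (hc0 : (algebraMap A0' A01').comp (algebraMap A0 A0') =
    (algebraMap A01 A01').comp (algebraMap A0 A01))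
  (hc1 : (algebraMap A1' A01').comp (algebraMap A1 A1') =
    (algebraMap A01 A01').comp (algebraMap A1 A01))

include hc0 hc1 in
/-- The closed subscheme cut out by a cube of ring maps: the kernels. -/
def Closed.ofCube : Closed A0 A1 A01 where
  I0 := RingHom.ker (algebraMap A0 A0')
  I1 := RingHom.ker (algebraMap A1 A1')
  I01 := RingHom.ker (algebraMap A01 A01')
  map0 := by
    rw [Ideal.map_le_iff_le_comap]
    intro a ha
    rw [Ideal.mem_comap, RingHom.mem_ker]
    have := RingHom.congr_fun hc0 a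
    simp only [RingHom.comp_apply] at this
    rw [← this, (RingHom.mem_ker).1 ha, map_zero]
  map1 := by
    rw [Ideal.map_le_iff_le_comap]
    intro a ha
    rw [Ideal.mem_comap, RingHom.mem_ker]
    have := RingHom.congr_fun hc1 a
    simp only [RingHom.comp_apply] at this
    rw [← this, (RingHom.mem_ker).1 ha, map_zero]

variable (c : TwoChart κ A0 A1 A01) (c' : TwoChart κ A0' A1' A01')

/-- A line whose base change along a surjective cube is trivial has generators along the closed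
subscheme. -/
theorem isTrivOn_of_liftData_unit (hs0 : Function.Surjective (algebraMap A0 A0'))
    (hs1 : Function.Surjective (algebraMap A1 A1'))
    (hs01 : Function.Surjective (algebraMap A01 A01'))
    {L : QC2 κ A0 A1 A01} (h : LiftData L (QC2.unit : QC2 κ A0' A1' A01')) :
    (Closed.ofCube hc0 hc1).IsTrivOn L := by
  obtain ⟨e0, he0⟩ := exists_one_tmul_eq hs0 (h.e0.symm (1 : A0'))
  obtain ⟨e1, he1⟩ := exists_one_tmul_eq hs1 (h.e1.symm (1 : A1'))
  have h0 : h.e0 ((1 : A0') ⊗ₜ[A0] e0) = (1 : A0') := by rw [he0, LinearEquiv.apply_symm_apply]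
  have h1 : h.e1 ((1 : A1') ⊗ₜ[A1] e1) = (1 : A1') := by rw [he1, LinearEquiv.apply_symm_apply]
  refine ⟨e0, e1, ?_, ?_, ?_⟩
  · intro n
    obtain ⟨a, ha⟩ := hs0 (h.e0 ((1 : A0') ⊗ₜ[A0] n))
    refine ⟨a, ?_⟩
    apply mem_ker_smul_top_of_one_tmul_eq_zero hs0
    apply h.e0.injective
    rw [map_zero, TensorProduct.tmul_sub, map_sub, TensorProduct.tmul_smul,
      ← algebraMap_smul A0' a ((1 : A0') ⊗ₜ[A0] e0), map_smul, h0, ← ha]
    show algebraMap A0 A0' a - algebraMap A0 A0' a • (1 : A0') = 0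
    rw [smul_eq_mul, mul_one, sub_self]
  · intro n
    obtain ⟨a, ha⟩ := hs1 (h.e1 ((1 : A1') ⊗ₜ[A1] n))
    refine ⟨a, ?_⟩
    apply mem_ker_smul_top_of_one_tmul_eq_zero hs1
    apply h.e1.injective
    rw [map_zero, TensorProduct.tmul_sub, map_sub, TensorProduct.tmul_smul,
      ← algebraMap_smul A1' a ((1 : A1') ⊗ₜ[A1] e1), map_smul, h1, ← ha]
    show algebraMap A1 A1' a - algebraMap A1 A1' a • (1 : A1') = 0
    rw [smul_eq_mul, mul_one, sub_self]
  · apply mem_ker_smul_top_of_one_tmul_eq_zero hs01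
    apply h.e01.injective
    rw [map_zero, TensorProduct.tmul_sub, map_sub, h.comm0, h.comm1, h0, h1]
    show algebraMap A0' A01' 1 - algebraMap A1' A01' 1 = 0
    rw [map_one, map_one, sub_self]

/-- A class killed by `LinePic.bc` along a surjective cube is trivial along the closed
subscheme. -/
theorem trivOnClass_of_bc_eq_one (hs0 : Function.Surjective (algebraMap A0 A0'))
    (hs1 : Function.Surjective (algebraMap A1 A1'))
    (hs01 : Function.Surjective (algebraMap A01 A01'))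
    {x : LinePic c} (hx : LinePic.bc hc0 hc1 c c' x = 1) :
    (Closed.ofCube hc0 hc1).TrivOnClass c x := by
  obtain ⟨L, hL, rfl⟩ := LinePic.exists_rep x
  rw [LinePic.one_def] at hx
  obtain ⟨h⟩ := LinePic.nonempty_liftData_of_bc_eq hc0 hc1 c c' hL isLine_unit hx
  exact ⟨L, hL, rfl, isTrivOn_of_liftData_unit hc0 hc1 hs0 hs1 hs01 h⟩

/-- elements of `(ker) • N` die in `R' ⊗ N` -/
theorem one_tmul_eq_zero_of_mem_ker_smul_top {R R' : Type*} [CommRing R] [CommRing R']
    [Algebra R R'] {N : Type*} [AddCommGroup N] [Module R N] {n : N}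
    (hn : n ∈ RingHom.ker (algebraMap R R') • (⊤ : Submodule R N)) :
    (1 : R') ⊗ₜ[R] n = 0 := by
  refine Submodule.smul_induction_on hn (fun a ha m _ => ?_) (fun y z hy hz => ?_)
  · rw [TensorProduct.tmul_smul, TensorProduct.smul_tmul', Algebra.smul_def, mul_one,
      (RingHom.mem_ker).1 ha, TensorProduct.zero_tmul]
  · rw [TensorProduct.tmul_add, hy, hz, add_zero]

/-- Conversely, a line with generators along the closed subscheme of a surjective cube has trivial
base change. -/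
theorem bc_eq_one_of_isTrivOn (hs0 : Function.Surjective (algebraMap A0 A0'))
    (hs1 : Function.Surjective (algebraMap A1 A1'))
    {L : QC2 κ A0 A1 A01} (hL : L.IsLine) (h : (Closed.ofCube hc0 hc1).IsTrivOn L) :
    LinePic.bc hc0 hc1 c c' (LinePic.mk c L hL) = 1 := by
  obtain ⟨e0, e1, he⟩ := h
  rw [LinePic.bc_mk hc0 hc1 c c' hL (liftData_bcCube hc0 hc1 L), LinePic.one_def]
  have hL' : (bcCube κ hc0 hc1 L).IsLine := LiftData.isLine (liftData_bcCube hc0 hc1 L) hL
  -- the global section `(1 ⊗ e0, 1 ⊗ e1)`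
  have hσ : (((1 : A0') ⊗ₜ[A0] e0, (1 : A1') ⊗ₜ[A1] e1) :
      (bcCube κ hc0 hc1 L).N0 × (bcCube κ hc0 hc1 L).N1) ∈ (bcCube κ hc0 hc1 L).H0 := by
    rw [mem_H0_iff]
    show (bcCube κ hc0 hc1 L).r0 ((1 : A0') ⊗ₜ[A0] e0) = (bcCube κ hc0 hc1 L).r1 ((1 : A1') ⊗ₜ[A1] e1)
    rw [bcCube_r0_tmul, bcCube_r1_tmul, map_one, map_one]
    have key := one_tmul_eq_zero_of_mem_ker_smul_top (R' := A01') he.compat
    rw [TensorProduct.tmul_sub] at key
    exact sub_eq_zero.1 key
  have g0 : Submodule.span A0' {(1 : A0') ⊗ₜ[A0] e0} = (⊤ : Submodule A0' (A0' ⊗[A0] L.N0)) := by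
    rw [eq_top_iff]
    intro z _
    obtain ⟨n, rfl⟩ := exists_one_tmul_eq hs0 z
    obtain ⟨a, ha⟩ := he.gen0 n
    have h1 := one_tmul_eq_zero_of_mem_ker_smul_top (R' := A0') ha
    rw [TensorProduct.tmul_sub, sub_eq_zero] at h1
    rw [h1, TensorProduct.tmul_smul, ← algebraMap_smul A0' a ((1 : A0') ⊗ₜ[A0] e0)]
    exact Submodule.smul_mem _ _ (Submodule.mem_span_singleton_self _)
  have g1 : Submodule.span A1' {(1 : A1') ⊗ₜ[A1] e1} = (⊤ : Submodule A1' (A1' ⊗[A1] L.N1)) := by
    rw [eq_top_iff]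
    intro z _
    obtain ⟨n, rfl⟩ := exists_one_tmul_eq hs1 z
    obtain ⟨a, ha⟩ := he.gen1 n
    have h1 := one_tmul_eq_zero_of_mem_ker_smul_top (R' := A1') ha
    rw [TensorProduct.tmul_sub, sub_eq_zero] at h1
    rw [h1, TensorProduct.tmul_smul, ← algebraMap_smul A1' a ((1 : A1') ⊗ₜ[A1] e1)]
    exact Submodule.smul_mem _ _ (Submodule.mem_span_singleton_self _)
  obtain ⟨φ⟩ := nonempty_iso_unit_of_span (bcCube κ hc0 hc1 L) hL' ⟨_, hσ⟩ g0 g1
  exact LinePic.mk_eq_mk hL' isLine_unit (isoSymm φ)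

/-- `LinePic.bc x = 1` along a surjective cube iff `x` is trivial along the closed subscheme. -/
theorem bc_eq_one_iff (hs0 : Function.Surjective (algebraMap A0 A0'))
    (hs1 : Function.Surjective (algebraMap A1 A1'))
    (hs01 : Function.Surjective (algebraMap A01 A01')) {x : LinePic c} :
    LinePic.bc hc0 hc1 c c' x = 1 ↔ (Closed.ofCube hc0 hc1).TrivOnClass c x := by
  constructor
  · exact trivOnClass_of_bc_eq_one hc0 hc1 c c' hs0 hs1 hs01
  · rintro ⟨L, hL, rfl, h⟩
    exact bc_eq_one_of_isTrivOn hc0 hc1 c c' hs0 hs1 hL h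

/-- "Global functions are constants" for the closed subscheme of a cube, from `H0Const` of the
target. -/
theorem Closed.h0Const_ofCube [IsScalarTower κ A0 A0'] [IsScalarTower κ A1 A1']
    (hc' : Fermat.Agent.T1.Red68.H0Const c') : (Closed.ofCube hc0 hc1).H0Const κ := by
  intro a0 a1 h
  have h' : algebraMap A01 A01' (algebraMap A0 A01 a0 - algebraMap A1 A01 a1) = 0 := h
  rw [map_sub, sub_eq_zero] at h'
  have k0 := RingHom.congr_fun hc0 a0
  have k1 := RingHom.congr_fun hc1 a1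
  simp only [RingHom.comp_apply] at k0 k1
  rw [← k0, ← k1] at h'
  obtain ⟨d, hd0, hd1⟩ := hc' _ _ h'
  refine ⟨d, ?_, ?_⟩
  · show algebraMap A0 A0' (a0 - algebraMap κ A0 d) = 0
    rw [map_sub, ← IsScalarTower.algebraMap_apply, hd0, sub_self]
  · show algebraMap A1 A1' (a1 - algebraMap κ A1 d) = 0
    rw [map_sub, ← IsScalarTower.algebraMap_apply, hd1, sub_self]

end Cube

section Main

variable {κ A0 A1 A01 : Type u} [Field κ] [CommRing A0] [CommRing A1] [CommRing A01]
  [Algebra κ A0] [Algebra κ A1] [Algebra κ A01] [Algebra A0 A01] [Algebra A1 A01]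
  [IsScalarTower κ A0 A01] [IsScalarTower κ A1 A01]
  -- the component `X`
  {X0 X1 X01 : Type u} [CommRing X0] [CommRing X1] [CommRing X01]
  [Algebra κ X0] [Algebra κ X1] [Algebra κ X01] [Algebra X0 X01] [Algebra X1 X01]
  [IsScalarTower κ X0 X01] [IsScalarTower κ X1 X01]
  [Algebra A0 X0] [Algebra A1 X1] [Algebra A01 X01]
  [IsScalarTower κ A0 X0] [IsScalarTower κ A1 X1]
  -- the component `Y`
  {Y0 Y1 Y01 : Type u} [CommRing Y0] [CommRing Y1] [CommRing Y01]
  [Algebra κ Y0] [Algebra κ Y1] [Algebra κ Y01] [Algebra Y0 Y01] [Algebra Y1 Y01]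
  [IsScalarTower κ Y0 Y01] [IsScalarTower κ Y1 Y01]
  [Algebra A0 Y0] [Algebra A1 Y1] [Algebra A01 Y01]
  [IsScalarTower κ A0 Y0] [IsScalarTower κ A1 Y1]

/-- **The torus kernel has no `p`-torsion (`LinePic.bc` form).**  `c` a two-chart curve over a
field `κ` of characteristic `p` with `p`-th roots, `cX`, `cY` two closed sub-curves (cubes of
surjective ring maps) which cover `c` (`ker ⊓ ker = ⊥` on the three opens), meet transversally
(`ker ⊔ ker` radical on the two charts), are nonempty on the chart `0` and have only constant global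
functions.  Then a class `x` with `x ^ p = 1` whose restrictions to `cX` and `cY` are trivial is
trivial. -/
theorem eq_one_of_pow_eq_one_of_bc (p : ℕ) [Fact p.Prime] [CharP κ p]
    (hroot : ∀ d : κ, ∃ δ : κ, δ ^ p = d)
    (c : TwoChart κ A0 A1 A01) (cX : TwoChart κ X0 X1 X01) (cY : TwoChart κ Y0 Y1 Y01)
    (hX0 : (algebraMap X0 X01).comp (algebraMap A0 X0) =
      (algebraMap A01 X01).comp (algebraMap A0 A01))
    (hX1 : (algebraMap X1 X01).comp (algebraMap A1 X1) =
      (algebraMap A01 X01).comp (algebraMap A1 A01))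
    (hY0 : (algebraMap Y0 Y01).comp (algebraMap A0 Y0) =
      (algebraMap A01 Y01).comp (algebraMap A0 A01))
    (hY1 : (algebraMap Y1 Y01).comp (algebraMap A1 Y1) =
      (algebraMap A01 Y01).comp (algebraMap A1 A01))
    (sX0 : Function.Surjective (algebraMap A0 X0)) (sX1 : Function.Surjective (algebraMap A1 X1))
    (sX01 : Function.Surjective (algebraMap A01 X01))
    (sY0 : Function.Surjective (algebraMap A0 Y0)) (sY1 : Function.Surjective (algebraMap A1 Y1))
    (sY01 : Function.Surjective (algebraMap A01 Y01))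
    (hcX : Fermat.Agent.T1.Red68.H0Const cX) (hcY : Fermat.Agent.T1.Red68.H0Const cY)
    [Nontrivial X0] [Nontrivial Y0]
    (h0 : RingHom.ker (algebraMap A0 X0) ⊓ RingHom.ker (algebraMap A0 Y0) = ⊥)
    (h1 : RingHom.ker (algebraMap A1 X1) ⊓ RingHom.ker (algebraMap A1 Y1) = ⊥)
    (h01 : RingHom.ker (algebraMap A01 X01) ⊓ RingHom.ker (algebraMap A01 Y01) = ⊥)
    (hrad0 : (RingHom.ker (algebraMap A0 X0) ⊔ RingHom.ker (algebraMap A0 Y0)).IsRadical)
    (hrad1 : (RingHom.ker (algebraMap A1 X1) ⊔ RingHom.ker (algebraMap A1 Y1)).IsRadical)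
    {x : LinePic c} (hxX : LinePic.bc hX0 hX1 c cX x = 1) (hxY : LinePic.bc hY0 hY1 c cY x = 1)
    (hxp : x ^ p = 1) : x = 1 :=
  eq_one_of_pow_eq_one (X := Closed.ofCube hX0 hX1) (Y := Closed.ofCube hY0 hY1) p hroot
    (Closed.h0Const_ofCube hX0 hX1 cX hcX) (Closed.h0Const_ofCube hY0 hY1 cY hcY)
    (RingHom.ker_ne_top _) (RingHom.ker_ne_top _) h0 h1 h01 hrad0 hrad1
    (trivOnClass_of_bc_eq_one hX0 hX1 c cX sX0 sX1 sX01 hxX)
    (trivOnClass_of_bc_eq_one hY0 hY1 c cY sY0 sY1 sY01 hxY) hxp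

end Main

end Fermat.Agent.T1B.Torus85
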